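import Mathlib
import Fermat.Agent.S24.FFApprox
import Fermat.Agent.S24.FFGenus
import Fermat.Agent.S24.FFPrincipalAbs
import Fermat.Agent.S24.FiniteFibres

/-!
# S37 (E6c): weak approximation for a finite set of places of a function field

`K` a field of characteristic zero, `F / K` a function field (`x` transcendental,
`[F : K(x)] < ∞`).  For a place `w` outside a finite set `S` of places there is `h ≠ 0` with
`ord_w h > 0` and `ord_{w'} h = 0` for all `w' ∈ S`.
-/

set_option autoImplicit false

namespace Fermat.Agent.S37.BaseChange.Approx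

open AlgebraicCurve IntermediateField
open Fermat.Agent.S24

variable {K F : Type*} [Field K] [Field F] [Algebra K F]

/-- at most one constant `a` makes `x - a` vanish at a given place. -/
theorem eq_of_ord_sub_pos (v : Place K F) (x : F) {a b : K}
    (ha : 0 < v.ord (x - algebraMap K F a)) (hb : 0 < v.ord (x - algebraMap K F b)) : a = b := by
  by_contra hab
  have hne : algebraMap K F (b - a) ≠ 0 := by
    rw [Ne, map_eq_zero]
    exact sub_ne_zero.mpr (Ne.symm hab)
  have h0 : v.ord (algebraMap K F (b - a)) = 0 := FFDeriv.ord_algebraMap v _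
  have hsum : (x - algebraMap K F a) + -(x - algebraMap K F b) = algebraMap K F (b - a) := by
    rw [map_sub]; ring
  have h1 := FFDeriv.min_le_ord_add v (x := x - algebraMap K F a) (y := -(x - algebraMap K F b))
    (by rw [hsum]; exact hne)
  rw [hsum, h0, FFDeriv.ord_neg] at h1
  have := lt_min ha hb
  omega

variable [CharZero K]

/-- a constant `a` such that `x - a` has no zero in a given finite set of places. -/
theorem exists_const_ord_sub_nonpos (x : F) (T : Finset (Place K F)) :
    ∃ a : K, ∀ v ∈ T, v.ord (x - algebraMap K F a) ≤ 0 := by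
  classical
  haveI : Infinite K := by
    haveI : Algebra ℚ K := DivisionRing.toRatAlgebra
    exact Infinite.of_injective (algebraMap ℚ K) (algebraMap ℚ K).injective
  have hfin : {a : K | ∃ v ∈ T, 0 < v.ord (x - algebraMap K F a)}.Finite := by
    have : {a : K | ∃ v ∈ T, 0 < v.ord (x - algebraMap K F a)}
        = ⋃ v ∈ T, {a : K | 0 < v.ord (x - algebraMap K F a)} := by
      ext a; simp
    rw [this]
    refine Set.Finite.biUnion T.finite_toSet fun v _ => ?_
    exact Set.Subsingleton.finite fun a ha b hb => eq_of_ord_sub_pos v x ha hb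
  obtain ⟨a, ha⟩ := hfin.exists_notMem
  refine ⟨a, fun v hv => ?_⟩
  by_contra h
  exact ha ⟨v, hv, not_le.mp h⟩

/-- **Weak approximation** (separation of one place from finitely many others). -/
theorem exists_sep (x : F) (hx : Transcendental K x) [FiniteDimensional K⟮x⟯ F]
    (w : Place K F) (S : Finset (Place K F)) (hw : w ∉ S) :
    ∃ h : F, h ≠ 0 ∧ 0 < w.ord h ∧ ∀ w' ∈ S, w'.ord h = 0 := by
  classical
  obtain ⟨a, ha⟩ := exists_const_ord_sub_nonpos x (insert w S)
  set y : F := (x - algebraMap K F a)⁻¹ with hy
  have hytr : Transcendental K y :=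
    FFPrin.transcendental_inv (FFGlue.transcendental_sub_const hx a)
  haveI : FiniteDimensional K⟮y⟯ F := FFGenus.finiteDimensional_of x hx y hytr
  have hord : ∀ v ∈ insert w S, 0 ≤ v.ord y := by
    intro v hv
    rw [hy, Place.ord_inv]
    have := ha v hv
    omega
  obtain ⟨f, hf0, -, hpos, hzero⟩ := FFApprox.exists_approx' y hytr w
    (hord w (Finset.mem_insert_self w S)) (fun c : S => (c : Place K F))
    (fun c => hord c (Finset.mem_insert_of_mem c.2)) (fun c hc => hw (hc ▸ c.2))
  exact ⟨f, hf0, hpos, fun w' hw' => hzero ⟨w', hw'⟩⟩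

/-- The modular instance: weak approximation in `F_M` over `ℚ̄`. -/
theorem exists_sep_bar (M : ℕ) [NeZero M] (w : Place BridgeInv.Kbar (BridgeInv.FF M))
    (S : Finset (Place BridgeInv.Kbar (BridgeInv.FF M))) (hw : w ∉ S) :
    ∃ h : BridgeInv.FF M, h ≠ 0 ∧ 0 < w.ord h ∧ ∀ w' ∈ S, w'.ord h = 0 :=
  exists_sep (PlaceAt.J M) (FiniteFibres.transcendental_J M) w S hw

end Fermat.Agent.S37.BaseChange.Approx
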