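import Mathlib

/-!
# S37 (E6m-1): compatibility of norms under base change of a finite field extension

`L / F` and `L' / F'` finite of the same degree, `π : F → F'`, `π' : L → L'` compatible ring
homomorphisms with `L' = F' · π'(L)`.  Then `π (N_{L/F} x) = N_{L'/F'} (π' x)`.
-/

set_option autoImplicit false

namespace Fermat.Agent.S37.BaseChange.NormCompat

open Module

variable {F L F' L' : Type*} [Field F] [Field L] [Field F'] [Field L']
  [Algebra F L] [Algebra F' L'] [FiniteDimensional F L]
  (π : F →+* F') (π' : L →+* L')
  (hcomm : ∀ a : F, π' (algebraMap F L a) = algebraMap F' L' (π a))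

include hcomm in
theorem map_smul' (a : F) (x : L) : π' (a • x) = π a • π' x := by
  rw [Algebra.smul_def, Algebra.smul_def, map_mul, hcomm]

include hcomm in
/-- the image of an `F`-basis of `L` spans `L'` over `F'` when `L' = F'[π' L]`. -/
theorem span_image_basis {ι : Type*} [Fintype ι] (b : Basis ι F L)
    (hgen : Algebra.adjoin F' (Set.range π') = ⊤) :
    (⊤ : Submodule F' L') ≤ Submodule.span F' (Set.range (π' ∘ b)) := by
  classical
  -- the span of the image of the basis contains `π' L`
  have himg : ∀ x : L, π' x ∈ Submodule.span F' (Set.range (π' ∘ b)) := by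
    intro x
    rw [← b.sum_repr x, map_sum]
    refine Submodule.sum_mem _ fun i _ => ?_
    rw [map_smul' π π' hcomm]
    exact Submodule.smul_mem _ _ (Submodule.subset_span ⟨i, rfl⟩)
  -- hence it is the span of `π' L`, which is a subalgebra
  have hspan : Submodule.span F' (Set.range (π' ∘ b)) = Submodule.span F' (Set.range π') := by
    apply le_antisymm
    · apply Submodule.span_mono
      rintro _ ⟨i, rfl⟩
      exact ⟨b i, rfl⟩
    · rw [Submodule.span_le]
      rintro _ ⟨x, rfl⟩
      exact himg x
  rw [hspan]
  have hset : Set.range π' = ((MonoidHom.mrange (π' : L →* L') : Submonoid L') : Set L') := by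
    ext y
    simp
  have hsub : (Algebra.adjoin F' (Set.range π')).toSubmodule
      = Submodule.span F' (Set.range π') := by
    rw [Algebra.adjoin_eq_span]
    conv_lhs => rw [hset, Submonoid.closure_eq]
    rw [← hset]
  rw [← hsub, hgen]
  exact le_of_eq rfl

include hcomm in
/-- **Norm compatibility under base change.** -/
theorem map_norm (hrank : finrank F L = finrank F' L')
    (hgen : Algebra.adjoin F' (Set.range π') = ⊤) (x : L) :
    π (Algebra.norm F x) = Algebra.norm F' (π' x) := by
  classical
  set b := Module.finBasis F L with hb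
  have hcard : Fintype.card (Fin (finrank F L)) = finrank F' L' := by
    rw [Fintype.card_fin, hrank]
  set b' : Basis (Fin (finrank F L)) F' L' :=
    basisOfTopLeSpanOfCardEqFinrank (π' ∘ b) (span_image_basis π π' hcomm b hgen) hcard with hb'
  have hb'i : ∀ i, b' i = π' (b i) := fun i => by
    rw [hb', coe_basisOfTopLeSpanOfCardEqFinrank]
    rfl
  rw [Algebra.norm_eq_matrix_det b, Algebra.norm_eq_matrix_det b', RingHom.map_det]
  congr 1
  ext i j
  rw [RingHom.mapMatrix_apply, Matrix.map_apply, Algebra.leftMulMatrix_eq_repr_mul,
    Algebra.leftMulMatrix_eq_repr_mul]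
  have h1 : π' x * b' j = ∑ k, π (b.repr (x * b j) k) • b' k := by
    rw [hb'i, ← map_mul, ← b.sum_repr (x * b j), map_sum]
    refine Finset.sum_congr rfl fun k _ => ?_
    rw [map_smul' π π' hcomm, hb'i, b.sum_repr]
  rw [h1, b'.repr_sum_self]

end Fermat.Agent.S37.BaseChange.NormCompat
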