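import Mathlib
import Fermat.Prelude.Def_AlgebraicCurve_Correspondence

/-!
# S37 (E6a): functoriality of restriction, ramification index and pullback of divisors in towers

Generic (Prelude `Place` API only): for `K`-algebra homomorphisms of fields
`φ : F₀ → F₁`, `ψ : F₁ → F₂`, both integral,
* `restrictAlong (ψ ∘ φ) = restrictAlong φ ∘ restrictAlong ψ`,
* `e(W | F₀) = e(W | F₁) * e(W|_{F₁} | F₀)`,
* `pullbackAlong (ψ ∘ φ) = pullbackAlong ψ ∘ pullbackAlong φ`.
-/

set_option autoImplicit false

namespace Fermat.Agent.S37.BaseChange.Tower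

open AlgebraicCurve

variable {K F₀ F₁ F₂ : Type*} [Field K] [Field F₀] [Field F₁] [Field F₂]
  [Algebra K F₀] [Algebra K F₁] [Algebra K F₂]

/-- a place has an element of order one -/
theorem exists_ord_eq_one (v : Place K F₀) : ∃ f : F₀, f ≠ 0 ∧ v.ord f = 1 := by
  haveI := v.isPrincipalIdealRing'
  have hnf : ¬ IsField v.toValuationSubring :=
    ValuationSubring.not_isField_of_ne_top (hA := v.ne_top')
  haveI : IsDiscreteValuationRing v.toValuationSubring :=
    { not_a_field' := fun h => hnf (IsLocalRing.isField_iff_maximalIdeal_eq.mpr h) }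
  obtain ⟨π, hπ⟩ := IsDiscreteValuationRing.exists_irreducible v.toValuationSubring
  refine ⟨(π : F₀), ?_, v.ord_coe_irreducible hπ⟩
  intro h0
  exact hπ.ne_zero (Subtype.ext h0)

variable (φ : F₀ →ₐ[K] F₁) (ψ : F₁ →ₐ[K] F₂)
variable (hφ : φ.toRingHom.IsIntegral) (hψ : ψ.toRingHom.IsIntegral)

include hφ hψ in
theorem isIntegral_comp : (ψ.comp φ).toRingHom.IsIntegral :=
  RingHom.IsIntegral.trans _ _ hφ hψ

include hφ in
theorem mem_restrictAlong_iff (w : Place K F₁) (f : F₀) :
    f ∈ (w.restrictAlong φ hφ).toValuationSubring ↔ φ f ∈ w.toValuationSubring := by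
  letI := algebraAlong φ
  have := isScalarTower_along φ
  have := isIntegral_along φ hφ
  exact Place.mem_restrict_iff (w := w) (f := f)

include hφ hψ in
theorem restrictAlong_comp (W : Place K F₂) (h : (ψ.comp φ).toRingHom.IsIntegral) :
    W.restrictAlong (ψ.comp φ) h = (W.restrictAlong ψ hψ).restrictAlong φ hφ := by
  apply Place.ext
  ext f
  rw [mem_restrictAlong_iff, mem_restrictAlong_iff, mem_restrictAlong_iff]
  rfl

include hφ hψ in
theorem ramificationIndexAlong_comp (W : Place K F₂) :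
    W.ramificationIndexAlong (ψ.comp φ) =
      W.ramificationIndexAlong ψ * (W.restrictAlong ψ hψ).ramificationIndexAlong φ := by
  have h := isIntegral_comp φ ψ hφ hψ
  obtain ⟨f, hf0, hf1⟩ := exists_ord_eq_one ((W.restrictAlong ψ hψ).restrictAlong φ hφ)
  have h1 := Place.ord_restrictAlong (ψ.comp φ) h W f
  have h2 := Place.ord_restrictAlong ψ hψ W (φ f)
  have h3 := Place.ord_restrictAlong φ hφ (W.restrictAlong ψ hψ) f
  rw [restrictAlong_comp φ ψ hφ hψ W h, hf1] at h1
  rw [h3, hf1] at h2
  have h4 : W.ord ((ψ.comp φ) f) = W.ord (ψ (φ f)) := rfl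
  rw [h4, h2] at h1
  have h5 : ((W.ramificationIndexAlong ψ * (W.restrictAlong ψ hψ).ramificationIndexAlong φ : ℕ) : ℤ)
      = (W.ramificationIndexAlong (ψ.comp φ) : ℤ) := by
    push_cast
    linarith
  exact_mod_cast h5.symm

variable [HasPrincipalDivisors K F₁] [HasPrincipalDivisors K F₂]

include hφ hψ in
theorem pullbackAlong_comp (h : (ψ.comp φ).toRingHom.IsIntegral) (D : Divisor K F₀) :
    Divisor.pullbackAlong (ψ.comp φ) h D =
      Divisor.pullbackAlong ψ hψ (Divisor.pullbackAlong φ hφ D) := by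
  ext W
  rw [Divisor.pullbackAlong_apply, Divisor.pullbackAlong_apply, Divisor.pullbackAlong_apply,
    restrictAlong_comp φ ψ hφ hψ W h, ramificationIndexAlong_comp φ ψ hφ hψ W]
  push_cast
  ring

end Fermat.Agent.S37.BaseChange.Tower
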