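import Mathlib
import Fermat.Prelude.Def_AlgebraicCurve_Correspondence
import Fermat.Agent.S37.BaseChange.Tower

/-!
# S37 (E6b,c): base change of divisors in a commutative square of function fields

`a : F → L`, `a' : F' → L'`, `p : F → F'`, `p' : L → L'` with `p' ∘ a = a' ∘ p`.  If the norm
formula holds along `a` and `a'`, norms are compatible (`p (N_a h) = N_{a'} (p' h)`) and `L` has
weak approximation on the fibres of `a`, then
`p^* ∘ a_* = a'_* ∘ p'^*` on divisors.
-/

set_option autoImplicit false

namespace Fermat.Agent.S37.BaseChange.Square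

open AlgebraicCurve Fermat.Agent.S37.BaseChange.Tower

variable {K F F' L L' : Type*} [Field K] [Field F] [Field F'] [Field L] [Field L']
  [Algebra K F] [Algebra K F'] [Algebra K L] [Algebra K L']

/-- the norm of `L / F` along a homomorphism -/
noncomputable def normAlong (a : F →ₐ[K] L) (h : L) : F :=
  letI := algebraAlong a
  Algebra.norm F h

section Basic

variable (a : F →ₐ[K] L) (ha : a.toRingHom.IsIntegral)

theorem pushforwardAlong_apply [DecidableEq (Place K F)] (D : Divisor K L) (v : Place K F) :
    Divisor.pushforwardAlong a ha D v =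
      ∑ w ∈ D.support,
        if w.restrictAlong a ha = v then D w * (w.inertiaDegAlong a ha : ℤ) else 0 := by
  letI := algebraAlong a
  have := isScalarTower_along a
  have := isIntegral_along a ha
  exact Divisor.pushforward_apply D v

/-- a divisor vanishing on the fibre of `v` pushes forward to something vanishing at `v` -/
theorem pushforwardAlong_apply_eq_zero (D : Divisor K L) (v : Place K F)
    (hD : ∀ w : Place K L, w.restrictAlong a ha = v → D w = 0) :
    Divisor.pushforwardAlong a ha D v = 0 := by
  classical
  rw [pushforwardAlong_apply]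
  refine Finset.sum_eq_zero fun w _ => ?_
  split_ifs with h
  · rw [hD w h, zero_mul]
  · rfl

theorem pushforwardAlong_apply_of_principal (hfin : FiniteAlong K a)
    (hN : NormFormulaAlong K a hfin) {h : L} (hh : h ≠ 0) {D : Divisor K L}
    (hD : ∀ w, D w = w.ord h) (v : Place K F) :
    Divisor.pushforwardAlong a ha D v = v.ord (normAlong a h) := by
  letI := algebraAlong a
  have := isScalarTower_along a
  have := isIntegral_along a ha
  haveI : Module.Finite F L := hfin
  exact hN h hh D hD v

theorem pullbackAlong_apply_of_principal [HasPrincipalDivisors K L] {f : F} {D : Divisor K F}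
    (hD : ∀ v, D v = v.ord f) (w : Place K L) :
    Divisor.pullbackAlong a ha D w = w.ord (a f) := by
  rw [Divisor.pullbackAlong_apply, hD, ← Place.ord_restrictAlong]

end Basic

section Main

variable (a : F →ₐ[K] L) (a' : F' →ₐ[K] L') (p : F →ₐ[K] F') (p' : L →ₐ[K] L')
variable (ha : a.toRingHom.IsIntegral) (ha' : a'.toRingHom.IsIntegral)
variable (hp : p.toRingHom.IsIntegral) (hp' : p'.toRingHom.IsIntegral)
variable (hsq : p'.comp a = a'.comp p)
variable [HasPrincipalDivisors K F'] [HasPrincipalDivisors K L] [HasPrincipalDivisors K L']

include hsq in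
/-- compatibility of restrictions in the square -/
theorem restrict_square (W : Place K L') :
    (W.restrictAlong p' hp').restrictAlong a ha = (W.restrictAlong a' ha').restrictAlong p hp := by
  rw [← restrictAlong_comp a p' ha hp' W (isIntegral_comp a p' ha hp'),
    ← restrictAlong_comp p a' hp ha' W (isIntegral_comp p a' hp ha')]
  exact Place.restrictAlong_congr hsq _ _ W

include hsq in
/-- a divisor of `L` vanishing on the `a`-fibre of `u|_F` contributes nothing at `u` to
`a'_* p'^*`. -/
theorem right_apply_eq_zero (D : Divisor K L) (u : Place K F')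
    (hD : ∀ w : Place K L, w.restrictAlong a ha = u.restrictAlong p hp → D w = 0) :
    Divisor.pushforwardAlong a' ha' (Divisor.pullbackAlong p' hp' D) u = 0 := by
  refine pushforwardAlong_apply_eq_zero a' ha' _ u fun W hW => ?_
  rw [Divisor.pullbackAlong_apply, hD (W.restrictAlong p' hp'), mul_zero]
  rw [restrict_square a a' p p' ha ha' hp hp' hsq W, hW]

/-- a divisor of `L` vanishing on the `a`-fibre of `u|_F` contributes nothing at `u` to
`p^* a_*`. -/
theorem left_apply_eq_zero (D : Divisor K L) (u : Place K F')
    (hD : ∀ w : Place K L, w.restrictAlong a ha = u.restrictAlong p hp → D w = 0) :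
    Divisor.pullbackAlong p hp (Divisor.pushforwardAlong a ha D) u = 0 := by
  rw [Divisor.pullbackAlong_apply, pushforwardAlong_apply_eq_zero a ha D _ hD, mul_zero]

variable (hfin : FiniteAlong K a) (hfin' : FiniteAlong K a')
variable (hN : NormFormulaAlong K a hfin) (hN' : NormFormulaAlong K a' hfin')
variable (hcompat : ∀ h : L, p (normAlong a h) = normAlong a' (p' h))

include hN hN' hcompat in
/-- the two sides agree on principal divisors -/
theorem principal_apply {h : L} (hh : h ≠ 0) {D : Divisor K L} (hD : ∀ w, D w = w.ord h)
    (u : Place K F') :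
    Divisor.pullbackAlong p hp (Divisor.pushforwardAlong a ha D) u =
      Divisor.pushforwardAlong a' ha' (Divisor.pullbackAlong p' hp' D) u := by
  have hh' : p' h ≠ 0 := by
    intro h0
    exact hh (p'.toRingHom.injective (by simpa using h0))
  rw [Divisor.pullbackAlong_apply, pushforwardAlong_apply_of_principal a ha hfin hN hh hD,
    ← Place.ord_restrictAlong p hp u, hcompat,
    pushforwardAlong_apply_of_principal a' ha' hfin' hN' hh'
      (fun W => pullbackAlong_apply_of_principal p' hp' hD W)]

variable (happ : ∀ (w : Place K L) (S : Finset (Place K L)), w ∉ S →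
    (∀ w' ∈ S, w'.restrictAlong a ha = w.restrictAlong a ha) →
    ∃ h : L, h ≠ 0 ∧ 0 < w.ord h ∧ ∀ w' ∈ S, w'.ord h = 0)

include hsq hN hN' hcompat happ in
theorem single_apply (w : Place K L) (u : Place K F') :
    Divisor.pullbackAlong p hp (Divisor.pushforwardAlong a ha (Finsupp.single w 1)) u =
      Divisor.pushforwardAlong a' ha' (Divisor.pullbackAlong p' hp' (Finsupp.single w 1)) u := by
  classical
  by_cases huw : w.restrictAlong a ha = u.restrictAlong p hp
  · -- the interesting case: approximate
    set v := u.restrictAlong p hp with hv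
    obtain ⟨h, hh, hpos, hzero⟩ := happ w ((Place.fiberAlong a ha v).erase w)
      (Finset.notMem_erase _ _) (fun w' hw' => by
        rw [Finset.mem_erase, Place.mem_fiberAlong] at hw'
        rw [hw'.2, huw])
    obtain ⟨Dh, hDh, -⟩ := HasPrincipalDivisors.exists_divisor (K := K) h hh
    set k : ℤ := w.ord h with hk
    set D' : Divisor K L := Dh - Finsupp.single w k with hD'
    have hvan : ∀ w' : Place K L, w'.restrictAlong a ha = v → D' w' = 0 := by
      intro w' hw'
      by_cases hww : w' = w
      · subst hww
        rw [hD', Finsupp.sub_apply, Finsupp.single_eq_same, hDh, hk, sub_self]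
      · rw [hD', Finsupp.sub_apply, Finsupp.single_eq_of_ne hww, sub_zero, hDh]
        exact hzero w' (Finset.mem_erase.mpr ⟨hww, Place.mem_fiberAlong.mpr hw'⟩)
    have hL := left_apply_eq_zero a p ha hp D' u hvan
    have hR := right_apply_eq_zero a a' p p' ha ha' hp hp' hsq D' u hvan
    have hP := principal_apply a a' p p' ha ha' hp hp' hfin hfin' hN hN' hcompat hh hDh u
    have hdec : Dh = D' + k • Finsupp.single w 1 := by
      rw [hD', Finsupp.smul_single, smul_eq_mul, mul_one, sub_add_cancel]
    rw [hdec, map_add, map_add, map_add, map_add, Finsupp.add_apply, Finsupp.add_apply, hL, hR,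
      zero_add, zero_add, map_zsmul, map_zsmul, map_zsmul, map_zsmul, Finsupp.smul_apply,
      Finsupp.smul_apply, smul_eq_mul, smul_eq_mul] at hP
    exact mul_left_cancel₀ (ne_of_gt hpos) hP
  · -- both sides vanish
    have hvan : ∀ w' : Place K L, w'.restrictAlong a ha = u.restrictAlong p hp →
        (Finsupp.single w (1 : ℤ)) w' = 0 := by
      intro w' hw'
      rw [Finsupp.single_eq_of_ne]
      rintro rfl
      exact huw hw'
    rw [left_apply_eq_zero a p ha hp _ u hvan,
      right_apply_eq_zero a a' p p' ha ha' hp hp' hsq _ u hvan]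

include hsq hN hN' hcompat happ in
/-- **base change**: `p^* ∘ a_* = a'_* ∘ p'^*` on divisors. -/
theorem pullback_pushforward (D : Divisor K L) :
    Divisor.pullbackAlong p hp (Divisor.pushforwardAlong a ha D) =
      Divisor.pushforwardAlong a' ha' (Divisor.pullbackAlong p' hp' D) := by
  have key : (Divisor.pullbackAlong p hp).comp (Divisor.pushforwardAlong a ha) =
      (Divisor.pushforwardAlong a' ha').comp (Divisor.pullbackAlong p' hp') := by
    refine Finsupp.addHom_ext fun w n => ?_
    have hn : (Finsupp.single w n : Divisor K L) = n • Finsupp.single w 1 := by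
      rw [Finsupp.smul_single, smul_eq_mul, mul_one]
    rw [hn, map_zsmul, map_zsmul]
    congr 1
    ext u
    exact single_apply a a' p p' ha ha' hp hp' hsq hfin hfin' hN hN' hcompat happ w u
  exact DFunLike.congr_fun key D

end Main

end Fermat.Agent.S37.BaseChange.Square
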