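import Mathlib
import Fermat.Agent.S37.BaseChange.Square
import Fermat.Agent.S37.BaseChange.NormCompat
import Fermat.Agent.S37.BaseChange.Approx
import Fermat.Agent.S37.HeckeInputs.Main

/-!
# S37 (E6m): base change of the Hecke correspondence, `π^* T_ℓ^{(N)} = T_ℓ^{(M)} π^*`

For `N ∣ M` the inclusion `π : F_N → F_M` satisfies
`π^* (heckeDivBar_N D) = heckeDivBar_M (π^* D)` on divisors, as soon as
`[F_{Nℓ} : F_N] = [F_{Mℓ} : F_M]` and `F_{Mℓ} = F_M · F_{Nℓ}` (both hold for `ℓ ∤ M` prime).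
-/

set_option autoImplicit false

namespace Fermat.Agent.S37.BaseChange.Hecke

open AlgebraicCurve IntermediateField ModularCurve
open Fermat.Agent.S24 Fermat.Agent.S24.BridgeInv Fermat.Agent.S24.PlaceAt
open Fermat.Agent.S37.HeckeInputs Fermat.Agent.S37.BaseChange.Square

noncomputable section

/-! ### the inclusions `F_N → F_M` -/

theorem laurentBaseChange_le (L : Type*) [Field L] [Algebra ℚ L]
    {F₀ F₁ : IntermediateField ℚ (LaurentSeries ℚ)} (h : F₀ ≤ F₁) :
    laurentBaseChange L F₀ ≤ laurentBaseChange L F₁ := by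
  rw [laurentBaseChange, IntermediateField.adjoin_le_iff]
  rintro _ ⟨y, hy, rfl⟩
  exact coeffEmb_mem_laurentBaseChange L (h hy)

theorem ff_le {N M : ℕ} [NeZero N] [NeZero M] (h : N ∣ M) :
    modularFunctionFieldBar N ≤ modularFunctionFieldBar M :=
  laurentBaseChange_le Kbar (full_degeneracy_le h)

/-- the inclusion `F_N → F_M` for `N ∣ M`. -/
def incl {N M : ℕ} [NeZero N] [NeZero M] (h : N ∣ M) : FF N →ₐ[Kbar] FF M :=
  IntermediateField.inclusion (ff_le h)

@[simp]
theorem coe_incl {N M : ℕ} [NeZero N] [NeZero M] (h : N ∣ M) (x : FF N) :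
    ((incl h x : FF M) : LaurentSeries Kbar) = (x : LaurentSeries Kbar) :=
  IntermediateField.coe_inclusion _ x

theorem incl_J {N M : ℕ} [NeZero N] [NeZero M] (h : N ∣ M) : incl h (J N) = J M :=
  Subtype.ext rfl

theorem finiteAlong_incl {N M : ℕ} [NeZero N] [NeZero M] (h : N ∣ M) :
    FiniteAlong Kbar (incl h) := by
  have : FiniteDimensional Kbar⟮incl h (J N)⟯ (FF M) := by
    rw [incl_J]
    infer_instance
  exact finiteAlong_of_finiteDimensional (incl h) (J N)

theorem isIntegral_incl {N M : ℕ} [NeZero N] [NeZero M] (h : N ∣ M) :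
    (incl h).toRingHom.IsIntegral :=
  isIntegral_of_finiteAlong _ (finiteAlong_incl h)

variable {N M : ℕ} [NeZero N] [NeZero M] (ℓ : ℕ) [NeZero ℓ] (hNM : N ∣ M)

/-- the `α`-square commutes. -/
theorem incl_comp_alpha :
    (incl (mul_dvd_mul_right hNM ℓ)).comp (heckeAlphaBar Kbar N ℓ)
      = (heckeAlphaBar Kbar M ℓ).comp (incl hNM) := by
  refine AlgHom.ext fun x => Subtype.ext ?_
  simp

/-- the `β`-square commutes. -/
theorem incl_comp_beta :
    (incl (mul_dvd_mul_right hNM ℓ)).comp (heckeBetaBar Kbar N ℓ)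
      = (heckeBetaBar Kbar M ℓ).comp (incl hNM) := by
  refine AlgHom.ext fun x => Subtype.ext ?_
  simp

/-- norm compatibility in the `α`-square, from equal degrees and generation. -/
theorem normAlong_compat
    (hrank : finrankAlong Kbar (heckeAlphaBar Kbar N ℓ)
      = finrankAlong Kbar (heckeAlphaBar Kbar M ℓ))
    (hgen : letI := algebraAlong (heckeAlphaBar Kbar M ℓ)
      Algebra.adjoin (FF M) (Set.range (incl (mul_dvd_mul_right hNM ℓ))) = ⊤)
    (h : FF (N * ℓ)) :
    incl hNM (normAlong (heckeAlphaBar Kbar N ℓ) h)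
      = normAlong (heckeAlphaBar Kbar M ℓ) (incl (mul_dvd_mul_right hNM ℓ) h) := by
  letI := algebraAlong (heckeAlphaBar Kbar N ℓ)
  letI := algebraAlong (heckeAlphaBar Kbar M ℓ)
  haveI : FiniteDimensional (FF N) (FF (N * ℓ)) := finiteAlong_alpha N ℓ
  exact NormCompat.map_norm (incl hNM).toRingHom (incl (mul_dvd_mul_right hNM ℓ)).toRingHom
    (fun a => DFunLike.congr_fun (incl_comp_alpha ℓ hNM) a) hrank hgen h

theorem pullbackAlong_congr {K F F' : Type*} [Field K] [Field F] [Field F'] [Algebra K F]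
    [Algebra K F'] [HasPrincipalDivisors K F'] {φ φ' : F →ₐ[K] F'} (h : φ = φ')
    (hφ : φ.toRingHom.IsIntegral) (hφ' : φ'.toRingHom.IsIntegral) (D : Divisor K F) :
    Divisor.pullbackAlong φ hφ D = Divisor.pullbackAlong φ' hφ' D := by
  subst h
  rfl

/-- **(E6)** base change of the Hecke correspondence on divisors, from equal degrees of `α` at
the two levels and `F_{Mℓ} = F_M · F_{Nℓ}`. -/
theorem pullback_heckeDivBar_of
    (hrank : finrankAlong Kbar (heckeAlphaBar Kbar N ℓ)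
      = finrankAlong Kbar (heckeAlphaBar Kbar M ℓ))
    (hgen : letI := algebraAlong (heckeAlphaBar Kbar M ℓ)
      Algebra.adjoin (FF M) (Set.range (incl (mul_dvd_mul_right hNM ℓ))) = ⊤)
    (hαN : HeckeAlphaBarIntegral Kbar N ℓ) (hβN : HeckeBetaBarIntegral Kbar N ℓ)
    (hαM : HeckeAlphaBarIntegral Kbar M ℓ) (hβM : HeckeBetaBarIntegral Kbar M ℓ)
    [HasPrincipalDivisors Kbar (FF (N * ℓ))] [HasPrincipalDivisors Kbar (FF (M * ℓ))]
    [HasPrincipalDivisors Kbar (FF M)]
    (hp : (incl hNM).toRingHom.IsIntegral) (D : Divisor Kbar (FF N)) :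
    Divisor.pullbackAlong (incl hNM) hp (heckeDivBar hαN hβN D)
      = heckeDivBar hαM hβM (Divisor.pullbackAlong (incl hNM) hp D) := by
  have hp' := isIntegral_incl (mul_dvd_mul_right hNM ℓ)
  rw [heckeDivBar, heckeDivBar, Divisor.correspondence_apply, Divisor.correspondence_apply]
  rw [pullback_pushforward (heckeAlphaBar Kbar N ℓ) (heckeAlphaBar Kbar M ℓ) (incl hNM)
    (incl (mul_dvd_mul_right hNM ℓ)) hαN hαM hp hp' (incl_comp_alpha ℓ hNM)
    (finiteAlong_alpha N ℓ) (finiteAlong_alpha M ℓ) (normFormulaAlong_alpha N ℓ)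
    (normFormulaAlong_alpha M ℓ) (normAlong_compat ℓ hNM hrank hgen)
    (fun w S hw _ => Approx.exists_sep_bar (N * ℓ) w S hw)]
  congr 1
  rw [← Tower.pullbackAlong_comp (heckeBetaBar Kbar N ℓ) (incl (mul_dvd_mul_right hNM ℓ)) hβN hp'
      (Tower.isIntegral_comp _ _ hβN hp'),
    ← Tower.pullbackAlong_comp (incl hNM) (heckeBetaBar Kbar M ℓ) hp hβM
      (Tower.isIntegral_comp _ _ hp hβM)]
  exact pullbackAlong_congr (incl_comp_beta ℓ hNM) _ _ D

end

end Fermat.Agent.S37.BaseChange.Hecke
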