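import Mathlib
import Fermat.Agent.S37.BaseChange.Hecke
import Fermat.Agent.S37.Kron.Degree

/-!
# S37 (E6m): the generation input of `pullback_heckeDivBar_of` from the generation of `F_{Mℓ}`
by the `J_d`, `d ∣ M`, and `J_ℓ`; and the degree input from `Kron.Degree.finrank_alpha`.
-/

set_option autoImplicit false

namespace Fermat.Agent.S37.BaseChange.Hecke

open AlgebraicCurve IntermediateField ModularCurve
open Fermat.Agent.S24 Fermat.Agent.S24.BridgeInv Fermat.Agent.S24.PlaceAt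
open Fermat.Agent.S37.HeckeInputs Fermat.Agent.S37.BaseChange.Square

noncomputable section

variable {N M : ℕ} [NeZero N] [NeZero M] (ℓ : ℕ) [NeZero ℓ] (hNM : N ∣ M)

/-- If `F_{Mℓ}` is generated over `ℚ̄` by the `J_d` with `d ∣ M` or `d = ℓ`, then
`F_{Mℓ} = F_M · F_{Nℓ}`. -/
theorem adjoin_incl_eq_top_of
    (hG : IntermediateField.adjoin Kbar
      {x : FF (M * ℓ) | ∃ d, ∃ (hd : d ∣ M * ℓ) (_ : NeZero d), (d ∣ M ∨ d = ℓ) ∧
        x = Jd (M * ℓ) d hd} = ⊤) :
    letI := algebraAlong (heckeAlphaBar Kbar M ℓ)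
    Algebra.adjoin (FF M) (Set.range (incl (mul_dvd_mul_right hNM ℓ))) = ⊤ := by
  letI := algebraAlong (heckeAlphaBar Kbar M ℓ)
  haveI := isScalarTower_along (heckeAlphaBar Kbar M ℓ)
  haveI : FiniteDimensional (FF M) (FF (M * ℓ)) := finiteAlong_alpha M ℓ
  set A := Algebra.adjoin (FF M) (Set.range (incl (mul_dvd_mul_right hNM ℓ))) with hA
  have hinv : ∀ x ∈ A.restrictScalars Kbar, x⁻¹ ∈ A.restrictScalars Kbar := by
    intro x hx
    exact A.inv_mem_of_algebraic (x := ⟨x, hx⟩) (Algebra.IsAlgebraic.isAlgebraic x)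
  let E : IntermediateField Kbar (FF (M * ℓ)) :=
    Subalgebra.toIntermediateField (A.restrictScalars Kbar) hinv
  have hE : IntermediateField.adjoin Kbar
      {x : FF (M * ℓ) | ∃ d, ∃ (hd : d ∣ M * ℓ) (_ : NeZero d), (d ∣ M ∨ d = ℓ) ∧
        x = Jd (M * ℓ) d hd} ≤ E := by
    rw [IntermediateField.adjoin_le_iff]
    rintro x ⟨d, hd, hd0, hdM | rfl, rfl⟩
    · have : Jd (M * ℓ) d hd = algebraMap (FF M) (FF (M * ℓ)) (Jd M d hdM) := Subtype.ext rfl
      show Jd (M * ℓ) d hd ∈ A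
      rw [this]
      exact A.algebraMap_mem _
    · have : Jd (M * d) d hd = incl (mul_dvd_mul_right hNM d) (Jd (N * d) d (dvd_mul_left d N)) :=
        Subtype.ext rfl
      show Jd (M * d) d hd ∈ A
      rw [this]
      exact Algebra.subset_adjoin ⟨_, rfl⟩
  rw [eq_top_iff]
  intro x _
  have hx : x ∈ E := hE (hG ▸ IntermediateField.mem_top)
  exact hx

include hNM in
/-- the degree input. -/
theorem finrankAlong_alpha_eq (hℓ : ℓ.Prime) (hℓM : ¬ ℓ ∣ M) :
    finrankAlong Kbar (heckeAlphaBar Kbar N ℓ) = finrankAlong Kbar (heckeAlphaBar Kbar M ℓ) := by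
  have hℓN : ¬ ℓ ∣ N := fun h => hℓM (h.trans hNM)
  exact (Kron.Degree.finrank_alpha N ℓ hℓ hℓN).trans (Kron.Degree.finrank_alpha M ℓ hℓ hℓM).symm

end

end Fermat.Agent.S37.BaseChange.Hecke
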